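import Fermat.Agent.ErdosStraus.Identities
import Fermat.Agent.Tau.AlmostAll

/-!
# Almost every `n`

A prime `p ≡ -1 (mod k)` dividing `n` gives `k / n` with two unit fractions.
-/

set_option autoImplicit false

open Filter Topology

namespace FA.ErdosStraus

theorem almost_all_twoTerms {k : ℕ} (hk : 0 < k) :
    Tendsto (fun N : ℕ => (Nat.card {n : ℕ // n < N ∧ ¬TwoTerms k n} : ℝ) / N) atTop (𝓝 0) := by
  have : NeZero (4 * k) := ⟨by omega⟩
  have : Fact (1 < 4 * k) := ⟨by omega⟩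
  refine FA.Tau.tendsto_zero_of_avoid (P := {p : ℕ | p.Prime ∧ (p : ZMod (4 * k)) =
    ((-1 : (ZMod (4 * k))ˣ) : ZMod (4 * k))}) (fun p hp => hp.1)
    (FA.Tau.not_summable_residueClass _ _) fun p hp n hd hd2 h => ?_
  obtain ⟨hprime, hclass⟩ := hp
  have hn : 0 < n := Nat.pos_of_ne_zero fun e => hd2 (by simp [e])
  refine h ((twoTerms_iff hn).2 ⟨1, p, one_dvd n, hd, (dvd_mul_left k 4).trans ?_⟩)
  rw [← ZMod.natCast_eq_zero_iff]
  push_cast
  rw [hclass]
  simp

theorem almost_all_threeTerms :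
    Tendsto (fun N : ℕ => (Nat.card {n : ℕ // n < N ∧ ¬ThreeTerms n} : ℝ) / N) atTop (𝓝 0) :=
  FA.Tau.tendsto_zero_or (almost_all_twoTerms four_pos) (almost_all_twoTerms four_pos)
    fun _ h => Or.inl fun h₂ => h (threeTerms_of_twoTerms h₂)

end FA.ErdosStraus
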