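import Mathlib.Tactic

/-!
# `k / n` with two unit fractions, `4 / n` with three

Mordell's congruences come from `4 / n = 1 / x + j / (n x)` with `4 x = n + j` and two divisors of
`n x` whose sum is a multiple of `j`.
-/

set_option autoImplicit false

namespace FA.ErdosStraus

/-- `k / n` is a sum of two unit fractions. -/
def TwoTerms (k n : ℕ) : Prop :=
  ∃ x y : ℕ, 0 < x ∧ 0 < y ∧ (k : ℚ) / n = 1 / x + 1 / y

/-- `4 / n` is a sum of three unit fractions. -/
def ThreeTerms (n : ℕ) : Prop :=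
  ∃ x y z : ℕ, 0 < x ∧ 0 < y ∧ 0 < z ∧ (4 : ℚ) / n = 1 / x + 1 / y + 1 / z

theorem twoTerms_of_dvd {k n a b c : ℕ} (hn : 0 < n) (ha : a ∣ n) (hb : b ∣ n)
    (h : a + b = k * c) : TwoTerms k n := by
  have ha0 : 0 < a := Nat.pos_of_dvd_of_pos ha hn
  have hb0 : 0 < b := Nat.pos_of_dvd_of_pos hb hn
  have hc : 0 < c := by
    rcases Nat.eq_zero_or_pos c with rfl | hc
    · omega
    · exact hc
  refine ⟨n / a * c, n / b * c, Nat.mul_pos (Nat.div_pos (Nat.le_of_dvd hn ha) ha0) hc,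
    Nat.mul_pos (Nat.div_pos (Nat.le_of_dvd hn hb) hb0) hc, ?_⟩
  have hq : (a : ℚ) + b = k * c := by exact_mod_cast h
  have : (n : ℚ) ≠ 0 := Nat.cast_ne_zero.2 hn.ne'
  have : (c : ℚ) ≠ 0 := Nat.cast_ne_zero.2 hc.ne'
  rw [Nat.cast_mul, Nat.cast_mul, Nat.cast_div ha (Nat.cast_ne_zero.2 ha0.ne'),
    Nat.cast_div hb (Nat.cast_ne_zero.2 hb0.ne')]
  field_simp
  linear_combination -hq

theorem exists_dvd_of_twoTerms {k n : ℕ} (hn : 0 < n) (h : TwoTerms k n) :
    ∃ a b, a ∣ n ∧ b ∣ n ∧ k ∣ a + b := by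
  obtain ⟨x, y, hx, hy, e⟩ := h
  have e' : k * (x * y) = n * (x + y) := by
    have : (n : ℚ) ≠ 0 := Nat.cast_ne_zero.2 hn.ne'
    have : (x : ℚ) ≠ 0 := Nat.cast_ne_zero.2 hx.ne'
    have : (y : ℚ) ≠ 0 := Nat.cast_ne_zero.2 hy.ne'
    field_simp at e
    exact_mod_cast (by linear_combination e : (k : ℚ) * (x * y) = n * (x + y))
  obtain ⟨a, b, hco, hxa, hyb⟩ := Nat.exists_coprime x y
  set g := Nat.gcd x y
  have hg : 0 < g := Nat.gcd_pos_of_pos_left _ hx
  have e'' : k * g * (a * b) = n * (a + b) := by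
    refine Nat.eq_of_mul_eq_mul_right hg ?_
    calc k * g * (a * b) * g = k * (a * g * (b * g)) := by ring
      _ = k * (x * y) := by rw [← hxa, ← hyb]
      _ = n * (a * g + b * g) := by rw [e', ← hxa, ← hyb]
      _ = n * (a + b) * g := by ring
  have hcop : Nat.Coprime (a * b) (a + b) := by
    refine Nat.Coprime.mul_left ?_ ?_
    · rw [Nat.coprime_self_add_right]; exact hco
    · rw [Nat.coprime_add_self_right]; exact hco.symm
  obtain ⟨m, rfl⟩ : a * b ∣ n := hcop.dvd_of_dvd_mul_right ⟨k * g, by rw [← e'', mul_comm]⟩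
  refine ⟨a * m, b * m, ⟨b, by ring⟩, ⟨a, by ring⟩, ⟨g, ?_⟩⟩
  have hab : 0 < a * b := Nat.mul_pos
    (Nat.pos_of_ne_zero fun h => by simp [h] at hxa; omega)
    (Nat.pos_of_ne_zero fun h => by simp [h] at hyb; omega)
  refine Nat.eq_of_mul_eq_mul_left hab ?_
  calc a * b * (a * m + b * m) = a * b * m * (a + b) := by ring
    _ = k * g * (a * b) := e''.symm
    _ = a * b * (k * g) := by ring

theorem twoTerms_iff {k n : ℕ} (hn : 0 < n) :
    TwoTerms k n ↔ ∃ a b, a ∣ n ∧ b ∣ n ∧ k ∣ a + b :=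
  ⟨exists_dvd_of_twoTerms hn, fun ⟨_, _, ha, hb, _, hc⟩ => twoTerms_of_dvd hn ha hb hc⟩

theorem threeTerms_of_twoTerms {n : ℕ} (h : TwoTerms 4 n) : ThreeTerms n := by
  obtain ⟨x, y, hx, hy, e⟩ := h
  refine ⟨x, y + 1, y * (y + 1), hx, by omega, Nat.mul_pos hy (by omega), ?_⟩
  push_cast at e ⊢
  rw [e]
  have : (y : ℚ) ≠ 0 := Nat.cast_ne_zero.2 hy.ne'
  field_simp
  ring

theorem threeTerms_of_shift {n j x a b c : ℕ} (hn : 0 < n) (hx : 4 * x = n + j)
    (ha : a ∣ n * x) (hb : b ∣ n * x) (h : a + b = j * c) : ThreeTerms n := by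
  have hx0 : 0 < x := by omega
  obtain ⟨y, z, hy, hz, e⟩ := twoTerms_of_dvd (Nat.mul_pos hn hx0) ha hb h
  refine ⟨x, y, z, hx0, hy, hz, ?_⟩
  have hq : (4 : ℚ) * x = n + j := by exact_mod_cast hx
  have : (n : ℚ) ≠ 0 := Nat.cast_ne_zero.2 hn.ne'
  have : (x : ℚ) ≠ 0 := Nat.cast_ne_zero.2 hx0.ne'
  rw [add_assoc, ← e]
  push_cast
  field_simp
  linear_combination hq

theorem threeTerms_mul {n : ℕ} (h : ThreeTerms n) {m : ℕ} (hm : 0 < m) : ThreeTerms (n * m) := by
  obtain ⟨x, y, z, hx, hy, hz, e⟩ := h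
  refine ⟨x * m, y * m, z * m, Nat.mul_pos hx hm, Nat.mul_pos hy hm, Nat.mul_pos hz hm, ?_⟩
  push_cast
  simp only [← div_div]
  rw [← add_div, ← add_div, e]

theorem threeTerms_three_mod_four {n : ℕ} (h : n % 4 = 3) : ThreeTerms n :=
  threeTerms_of_twoTerms (twoTerms_of_dvd (a := 1) (b := n) (c := n / 4 + 1) (by omega)
    (one_dvd n) dvd_rfl (by omega))

theorem threeTerms_five_mod_eight {n : ℕ} (h : n % 8 = 5) : ThreeTerms n :=
  threeTerms_of_shift (x := (n + 3) / 4) (j := 3) (a := 1) (b := 2) (c := 1) (by omega) (by omega)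
    (one_dvd _) (dvd_mul_of_dvd_right (by omega) n) rfl

theorem threeTerms_two_mod_three {n : ℕ} (h₄ : n % 4 = 1) (h : n % 3 = 2) : ThreeTerms n :=
  threeTerms_of_shift (x := (n + 3) / 4) (j := 3) (a := 1) (b := n) (c := n / 3 + 1) (by omega)
    (by omega) (one_dvd _) (dvd_mul_right n _) (by omega)

theorem two_dvd_shift {n j : ℕ} (h : (n + j) % 8 = 0) : 2 ∣ n * ((n + j) / 4) :=
  dvd_mul_of_dvd_right (by omega) n

theorem two_mul_dvd_shift {n j : ℕ} (h : (n + j) % 8 = 0) : 2 * n ∣ n * ((n + j) / 4) := by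
  rw [mul_comm 2 n]; exact mul_dvd_mul_left n (by omega)

theorem threeTerms_mod_five {n : ℕ} (h₈ : n % 8 = 1) (h₃ : n % 3 = 1)
    (h : n % 5 = 2 ∨ n % 5 = 3) : ThreeTerms n := by
  rcases h with h | h
  · exact threeTerms_of_shift (j := 15) (x := (n + 15) / 4) (c := (2 * n + 1) / 15) (by omega)
      (by omega) (two_mul_dvd_shift (by omega)) (one_dvd _) (by omega)
  · exact threeTerms_of_shift (j := 15) (x := (n + 15) / 4) (c := (n + 2) / 15) (by omega)
      (by omega) (dvd_mul_right n _) (two_dvd_shift (by omega)) (by omega)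

theorem threeTerms_mod_seven {n : ℕ} (h₈ : n % 8 = 1)
    (h : n % 7 = 3 ∨ n % 7 = 5 ∨ n % 7 = 6) : ThreeTerms n := by
  rcases h with h | h | h
  · exact threeTerms_of_shift (j := 7) (x := (n + 7) / 4) (c := (2 * n + 1) / 7) (by omega)
      (by omega) (two_mul_dvd_shift (by omega)) (one_dvd _) (by omega)
  · exact threeTerms_of_shift (j := 7) (x := (n + 7) / 4) (c := (n + 2) / 7) (by omega)
      (by omega) (dvd_mul_right n _) (two_dvd_shift (by omega)) (by omega)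
  · exact threeTerms_of_shift (j := 7) (x := (n + 7) / 4) (c := (n + 1) / 7) (by omega)
      (by omega) (dvd_mul_right n _) (one_dvd _) (by omega)

/-- The classes with no identity. -/
def MordellClass (n : ℕ) : Prop :=
  n % 840 = 1 ∨ n % 840 = 121 ∨ n % 840 = 169 ∨ n % 840 = 289 ∨ n % 840 = 361 ∨ n % 840 = 529

theorem mordellClass_of_residues {n : ℕ} (h₈ : n % 8 = 1) (h₃ : n % 3 = 1)
    (h₅ : n % 5 = 1 ∨ n % 5 = 4) (h₇ : n % 7 = 1 ∨ n % 7 = 2 ∨ n % 7 = 4) : MordellClass n := by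
  unfold MordellClass
  rcases h₅ with h | h <;> rcases h₇ with h' | h' | h' <;> omega

theorem threeTerms_prime {p : ℕ} (hp : p.Prime) (h : ¬MordellClass p) : ThreeTerms p := by
  rcases hp.eq_two_or_odd with rfl | hodd
  · exact threeTerms_of_twoTerms (twoTerms_of_dvd (a := 2) (b := 2) (c := 1) two_pos dvd_rfl dvd_rfl
      rfl)
  by_cases e4 : p % 4 = 3
  · exact threeTerms_three_mod_four e4
  by_cases e8 : p % 8 = 5
  · exact threeTerms_five_mod_eight e8
  by_cases e3 : p % 3 = 2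
  · exact threeTerms_two_mod_three (by omega) e3
  have hne : ∀ q, q.Prime → (q % 4 = 3 ∨ q % 8 = 5) → p % q ≠ 0 := fun q hq hq' e => by
    have := (Nat.prime_dvd_prime_iff_eq hq hp).1 (Nat.dvd_of_mod_eq_zero e)
    omega
  have n3 := hne 3 Nat.prime_three (by norm_num)
  have n5 := hne 5 Nat.prime_five (by norm_num)
  have n7 := hne 7 (by norm_num) (by norm_num)
  have h₈ : p % 8 = 1 := by omega
  have h₃ : p % 3 = 1 := by omega
  have h₅ : (p % 5 = 2 ∨ p % 5 = 3) ∨ (p % 5 = 1 ∨ p % 5 = 4) := by omega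
  have h₇ : (p % 7 = 3 ∨ p % 7 = 5 ∨ p % 7 = 6) ∨ (p % 7 = 1 ∨ p % 7 = 2 ∨ p % 7 = 4) := by omega
  rcases h₅ with h₅ | h₅
  · exact threeTerms_mod_five h₈ h₃ h₅
  rcases h₇ with h₇ | h₇
  · exact threeTerms_mod_seven h₈ h₇
  exact absurd (mordellClass_of_residues h₈ h₃ h₅ h₇) h

theorem prime_classes {n : ℕ} (hn : 0 < n) (h : ¬ThreeTerms n) {p : ℕ} (hp : p.Prime)
    (hd : p ∣ n) : MordellClass p := by
  by_contra hc
  obtain ⟨m, rfl⟩ := hd
  exact h (threeTerms_mul (threeTerms_prime hp hc) (Nat.pos_of_mul_pos_left hn))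

theorem threeTerms_le_two_thousand {n : ℕ} (h2 : 2 ≤ n) (hn : n ≤ 2000) : ThreeTerms n := by
  by_contra h
  have hfac : ∀ p, p.Prime → p ∣ n → p = 1009 ∨ p = 1129 ∨ p = 1201 ∨ p = 1801 := by
    intro p hp hd
    have hc := prime_classes (by omega) h hp hd
    have hle : p ≤ 2000 := (Nat.le_of_dvd (by omega) hd).trans hn
    unfold MordellClass at hc
    have hcand : p = 1 ∨ p = 121 ∨ p = 169 ∨ p = 289 ∨ p = 361 ∨ p = 529 ∨ p = 841 ∨ p = 961 ∨
        p = 1369 ∨ p = 1681 ∨ p = 1849 ∨ p = 1969 ∨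
        p = 1009 ∨ p = 1129 ∨ p = 1201 ∨ p = 1801 := by omega
    rcases hcand with rfl | rfl | rfl | rfl | rfl | rfl | rfl | rfl | rfl | rfl | rfl | rfl | e <;>
      first | exact e | exact absurd hp (by norm_num)
  obtain ⟨p, hp, hd⟩ := Nat.exists_prime_and_dvd (show n ≠ 1 by omega)
  obtain ⟨m, rfl⟩ := hd
  rcases hfac p hp (dvd_mul_right p m) with rfl | rfl | rfl | rfl <;>
    obtain rfl : m = 1 := by omega
  · exact h (threeTerms_of_shift (j := 3) (x := 253) (a := 1) (b := 11) (c := 4) (by norm_num)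
      (by norm_num) (one_dvd _) (by norm_num) (by norm_num))
  · exact h (threeTerms_of_shift (j := 11) (x := 285) (a := 1) (b := 285) (c := 26) (by norm_num)
      (by norm_num) (one_dvd _) (by norm_num) (by norm_num))
  · exact h (threeTerms_of_shift (j := 23) (x := 306) (a := 1) (b := 10809) (c := 470) (by norm_num)
      (by norm_num) (one_dvd _) (by norm_num) (by norm_num))
  · exact h (threeTerms_of_shift (j := 3) (x := 451) (a := 1) (b := 11) (c := 4) (by norm_num)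
      (by norm_num) (one_dvd _) (by norm_num) (by norm_num))

end FA.ErdosStraus
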